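/-
S28 [Tower] (helper32), layer 1: algebra-hom forms of `expand`/`scale`, substitution into the
modular polynomial, the tower fields `k(j(q^d) : d ∣ N)`, rank helpers and the valuation argument
(`1, j, …, j^(p-1)` are independent over `k((q^p))`).
-/
import Mathlib
import Fermat.Prelude.Def_ModularCurve_IgusaScheme
import Fermat.Prelude.Def_ModularCurve_X0ModL
import Fermat.Agent.S28.Defs
import Fermat.Agent.S28.Subst

set_option autoImplicit false

noncomputable section

namespace Fermat.Agent.S28.Tower

open ModularCurve Polynomial IntermediateField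

section TowerBasic

variable (k : Type*) [Field k]

/-- `expand` as a `k`-algebra hom. -/
def expandAlg (m : ℕ) : LaurentSeries k →ₐ[k] LaurentSeries k :=
  { expand k m with commutes' := fun c => expand_algebraMap m c }

@[simp]
theorem expandAlg_apply (m : ℕ) (f : LaurentSeries k) : expandAlg k m f = expand k m f := rfl

variable {k}

/-- `scale` as a `k`-algebra hom. -/
def scaleAlg (ζ : kˣ) : LaurentSeries k →ₐ[k] LaurentSeries k :=
  { scale ζ with commutes' := fun c => scale_algebraMap ζ c }

@[simp]
theorem scaleAlg_apply (ζ : kˣ) (f : LaurentSeries k) : scaleAlg ζ f = scale ζ f := rfl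

/-- `Φ(X, x)`: substitute `x` for the inner variable of a bivariate polynomial. -/
def phiAt {A : Type*} [CommRing A] [Algebra k A] (Φ : Polynomial (Polynomial k)) (x : A) :
    Polynomial A :=
  Φ.map (Polynomial.aeval x).toRingHom

theorem phiAt_def {A : Type*} [CommRing A] [Algebra k A] (Φ : Polynomial (Polynomial k)) (x : A) :
    phiAt Φ x = Φ.map (Polynomial.aeval x).toRingHom := rfl

theorem phiAt_map {A B : Type*} [CommRing A] [CommRing B] [Algebra k A] [Algebra k B]
    (f : A →ₐ[k] B) (Φ : Polynomial (Polynomial k)) (x : A) :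
    (phiAt Φ x).map (f : A →+* B) = phiAt Φ (f x) := by
  unfold phiAt
  rw [Polynomial.map_map]
  congr 1
  apply Polynomial.ringHom_ext
  · intro c
    simp
  · simp

theorem phiAt_eval_map {A B : Type*} [CommRing A] [CommRing B] [Algebra k A] [Algebra k B]
    (f : A →ₐ[k] B) (Φ : Polynomial (Polynomial k)) (a b : A) :
    (phiAt Φ (f a)).eval (f b) = f ((phiAt Φ a).eval b) := by
  rw [← phiAt_map f Φ a]
  exact Polynomial.eval_map_apply (f : A →+* B) b

theorem phiAt_monic {A : Type*} [CommRing A] [Algebra k A] {Φ : Polynomial (Polynomial k)}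
    (hΦ : Φ.Monic) (x : A) : (phiAt Φ x).Monic :=
  hΦ.map _

theorem phiAt_natDegree {A : Type*} [CommRing A] [Algebra k A] [Nontrivial A]
    {Φ : Polynomial (Polynomial k)} (hΦ : Φ.Monic) (x : A) :
    (phiAt Φ x).natDegree = Φ.natDegree :=
  hΦ.natDegree_map _

variable (k)

/-- The generators `j(q^d)`, `d ∣ N`. -/
def genSet (N : ℕ) : Set (LaurentSeries k) :=
  {x | ∃ d : ℕ, d ∣ N ∧ x = expand k d (jqModC k)}

/-- `k(j(q^d) : d ∣ N)` inside `k((q))`. -/
def towerField (N : ℕ) : IntermediateField k (LaurentSeries k) :=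
  IntermediateField.adjoin k (genSet k N)

variable {k}

theorem mem_genSet {N d : ℕ} (h : d ∣ N) : expand k d (jqModC k) ∈ genSet k N :=
  ⟨d, h, rfl⟩

theorem jq_mem_genSet (N : ℕ) : jqModC k ∈ genSet k N :=
  ⟨1, one_dvd N, (expand_one _).symm⟩

theorem genSet_one : genSet k 1 = {jqModC k} := by
  ext x
  constructor
  · rintro ⟨d, hd, rfl⟩
    rw [Nat.dvd_one] at hd
    subst hd
    rw [expand_one]
    rfl
  · intro hx
    rw [Set.mem_singleton_iff] at hx
    subst hx
    exact jq_mem_genSet 1

theorem genSet_mono {M N : ℕ} (h : M ∣ N) : genSet k M ⊆ genSet k N := by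
  rintro x ⟨d, hd, rfl⟩
  exact ⟨d, hd.trans h, rfl⟩

theorem towerField_mono {M N : ℕ} (h : M ∣ N) : towerField k M ≤ towerField k N :=
  IntermediateField.adjoin.mono k _ _ (genSet_mono h)

theorem towerField_one : towerField k 1 = IntermediateField.adjoin k {jqModC k} := by
  unfold towerField
  rw [genSet_one]

theorem expand_mem_towerField {N d : ℕ} (h : d ∣ N) : expand k d (jqModC k) ∈ towerField k N :=
  IntermediateField.subset_adjoin k _ (mem_genSet h)

theorem jq_mem_towerField (N : ℕ) : jqModC k ∈ towerField k N :=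
  IntermediateField.subset_adjoin k _ (jq_mem_genSet N)

theorem map_expandAlg_towerField_le {p M : ℕ} (hp : p ≠ 0) (hM : M ≠ 0) :
    (towerField k M).map (expandAlg k p) ≤ towerField k (p * M) := by
  unfold towerField
  rw [IntermediateField.adjoin_map, IntermediateField.adjoin_le_iff]
  rintro _ ⟨x, ⟨d, hd, rfl⟩, rfl⟩
  have hd0 : d ≠ 0 := by
    rintro rfl
    exact hM (Nat.eq_zero_of_zero_dvd hd)
  rw [expandAlg_apply, expand_expand hp hd0]
  exact IntermediateField.subset_adjoin k _ (mem_genSet (Nat.mul_dvd_mul_left p hd))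

theorem map_expandAlg_towerField_one (p : ℕ) :
    (towerField k 1).map (expandAlg k p) =
      IntermediateField.adjoin k {expand k p (jqModC k)} := by
  rw [towerField_one, IntermediateField.adjoin_map, Set.image_singleton, expandAlg_apply]

theorem mem_range_expand_of_mem_map {p : ℕ} {B : IntermediateField k (LaurentSeries k)}
    {x : LaurentSeries k} (hx : x ∈ B.map (expandAlg k p)) : x ∈ Set.range (expand k p) := by
  obtain ⟨y, -, rfl⟩ := hx
  exact ⟨y, rfl⟩

end TowerBasic

/-! ### rank helpers -/
section RankHelpers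

variable {F E : Type*} [Field F] [Field E] [Algebra F E]

/-- `n` elements of `B` independent over `A ≤ B` give `n ≤ [B : A]`. -/
theorem natCast_le_relrank {A B : IntermediateField F E} (h : A ≤ B) {n : ℕ} (v : Fin n → E)
    (hv : ∀ i, v i ∈ B) (hli : LinearIndependent A v) :
    (n : Cardinal) ≤ IntermediateField.relrank A B := by
  rw [IntermediateField.relrank_eq_rank_of_le h]
  let v' : Fin n → ↥(IntermediateField.extendScalars h) := fun i => ⟨v i, hv i⟩
  have hli' : LinearIndependent A v' := by
    apply LinearIndependent.of_comp (IntermediateField.extendScalars h).val.toLinearMap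
    exact hli
  have := hli'.cardinal_lift_le_rank
  simpa using this

/-- Conversely, if `B ⊆ span_A T` then `n ≤ [B : A]` gives `n` elements of `T` independent
over `A`. -/
theorem exists_linearIndependent_of_le_relrank {A B : IntermediateField F E} (h : A ≤ B)
    (T : Set E) (hT : ∀ x ∈ B, x ∈ Submodule.span A T) {n : ℕ}
    (hn : (n : Cardinal) ≤ IntermediateField.relrank A B) :
    ∃ v : Fin n → E, (∀ i, v i ∈ T) ∧ LinearIndependent A v := by
  obtain ⟨b, hbT, hspan, hli⟩ := _root_.exists_linearIndependent A T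
  have hrank : Module.rank A (Submodule.span A T) = Cardinal.mk b := by
    rw [← hspan]
    exact rank_span_set hli
  have hle : IntermediateField.relrank A B ≤ Module.rank A (Submodule.span A T) := by
    rw [IntermediateField.relrank_eq_rank_of_le h]
    let f : ↥(IntermediateField.extendScalars h) →ₗ[A] ↥(Submodule.span A T) :=
      LinearMap.codRestrict _ (IntermediateField.extendScalars h).val.toLinearMap
        (fun x => hT x.1 x.2)
    refine LinearMap.rank_le_of_injective f ?_
    intro x y hxy
    have := congrArg Subtype.val hxy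
    exact Subtype.ext this
  have hnb : (n : Cardinal) ≤ Cardinal.mk b := hn.trans (hle.trans hrank.le)
  have hemb : Nonempty (Fin n ↪ b) := by
    rw [← Cardinal.lift_mk_le']
    simpa using hnb
  obtain ⟨e⟩ := hemb
  refine ⟨fun i => ((e i : b) : E), fun i => hbT (e i).2, ?_⟩
  exact hli.comp e e.injective

end RankHelpers

/-! ### the valuation argument -/
section Valuation

variable {k : Type*} [Field k]

theorem coeff_order_ne_zero_of_ne {x : LaurentSeries k} (hx : x ≠ 0) : x.coeff x.order ≠ 0 :=
  fun h => hx (HahnSeries.coeff_order_eq_zero.mp h)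

theorem order_jqModC : (jqModC k).order = -1 := by
  have hne : jqModC k ≠ 0 := jqModC_ne_zero_of_nontrivial k
  apply le_antisymm
  · apply HahnSeries.order_le_of_coeff_ne_zero
    rw [coeff_jqModC_neg_one]
    exact one_ne_zero
  · by_contra hlt
    have hlt' : (jqModC k).order < -1 := not_le.mp hlt
    exact coeff_order_ne_zero_of_ne hne (coeff_jqModC_of_lt k hlt')

theorem order_dvd_of_mem_range_expand {p : ℕ} (hp : p ≠ 0) {c : LaurentSeries k}
    (hc : c ∈ Set.range (expand k p)) (hc0 : c ≠ 0) : (p : ℤ) ∣ c.order := by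
  by_contra hnd
  exact coeff_order_ne_zero_of_ne hc0 ((mem_range_expand_iff hp c).mp hc _ hnd)

theorem sum_ne_zero_of_order_injOn {ι : Type*} (s : Finset ι) (t : ι → LaurentSeries k)
    (hs : s.Nonempty) (hne : ∀ a ∈ s, t a ≠ 0)
    (hinj : ∀ a ∈ s, ∀ b ∈ s, (t a).order = (t b).order → a = b) :
    ∑ a ∈ s, t a ≠ 0 := by
  obtain ⟨a₀, ha₀, hmin⟩ := Finset.exists_min_image s (fun a => (t a).order) hs
  intro hsum
  have hcoeff : (∑ a ∈ s, t a).coeff (t a₀).order = (t a₀).coeff (t a₀).order := by
    rw [HahnSeries.coeff_sum]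
    refine Finset.sum_eq_single a₀ ?_ ?_
    · intro b hb hba
      apply HahnSeries.coeff_eq_zero_of_lt_order
      refine lt_of_le_of_ne (hmin b hb) ?_
      intro heq
      exact hba (hinj b hb a₀ ha₀ heq.symm)
    · intro h
      exact absurd ha₀ h
  rw [hsum] at hcoeff
  exact coeff_order_ne_zero_of_ne (hne a₀ ha₀) (by rw [← hcoeff]; rfl)

theorem eq_zero_of_sum_mul_jq_pow {p : ℕ} (hp : p ≠ 0) (c : Fin p → LaurentSeries k)
    (hc : ∀ a, c a ∈ Set.range (expand k p))
    (h : ∑ a, c a * jqModC k ^ (a : ℕ) = 0) : ∀ a, c a = 0 := by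
  classical
  have hj : jqModC k ≠ 0 := jqModC_ne_zero_of_nontrivial k
  set s : Finset (Fin p) := Finset.univ.filter (fun a => c a ≠ 0) with hs
  have hsum : ∑ a ∈ s, c a * jqModC k ^ (a : ℕ) = 0 := by
    rw [← h, hs, Finset.sum_filter]
    refine Finset.sum_congr rfl ?_
    intro a _
    by_cases hca : c a = 0
    · simp [hca]
    · simp [hca]
  have hempty : s = ∅ := by
    by_contra hne
    have hsne : s.Nonempty := Finset.nonempty_iff_ne_empty.mpr hne
    refine sum_ne_zero_of_order_injOn s (fun a => c a * jqModC k ^ (a : ℕ)) hsne ?_ ?_ hsum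
    · intro a ha
      have hca : c a ≠ 0 := (Finset.mem_filter.mp ha).2
      exact mul_ne_zero hca (pow_ne_zero _ hj)
    · intro a ha b hb hab
      have hca : c a ≠ 0 := (Finset.mem_filter.mp ha).2
      have hcb : c b ≠ 0 := (Finset.mem_filter.mp hb).2
      rw [HahnSeries.order_mul hca (pow_ne_zero _ hj), HahnSeries.order_mul hcb (pow_ne_zero _ hj),
        HahnSeries.order_pow, HahnSeries.order_pow, order_jqModC] at hab
      obtain ⟨u, hu⟩ := order_dvd_of_mem_range_expand hp (hc a) hca
      obtain ⟨w, hw⟩ := order_dvd_of_mem_range_expand hp (hc b) hcb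
      rw [hu, hw] at hab
      simp only [nsmul_eq_mul, mul_neg, mul_one] at hab
      have ha' : ((a : ℕ) : ℤ) < p := by exact_mod_cast a.2
      have hb' : ((b : ℕ) : ℤ) < p := by exact_mod_cast b.2
      have ha0 : (0 : ℤ) ≤ ((a : ℕ) : ℤ) := by positivity
      have hb0 : (0 : ℤ) ≤ ((b : ℕ) : ℤ) := by positivity
      have hpdvd : (p : ℤ) ∣ ((a : ℕ) : ℤ) - ((b : ℕ) : ℤ) := ⟨u - w, by linarith⟩
      have habz : ((a : ℕ) : ℤ) - ((b : ℕ) : ℤ) = 0 := by
        apply Int.eq_zero_of_abs_lt_dvd hpdvd
        rw [abs_lt]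
        constructor <;> linarith
      apply Fin.ext
      have : ((a : ℕ) : ℤ) = ((b : ℕ) : ℤ) := by linarith
      exact_mod_cast this
  intro a
  by_contra hca
  have : a ∈ s := by
    rw [hs]
    exact Finset.mem_filter.mpr ⟨Finset.mem_univ a, hca⟩
  rw [hempty] at this
  exact absurd this (Finset.notMem_empty a)

/-- `1, j, …, j^(p-1)` are linearly independent over any intermediate field contained in
`k((q^p))`. -/
theorem linearIndependent_jq_pow {p : ℕ} (hp : p ≠ 0)
    (B : IntermediateField k (LaurentSeries k))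
    (hB : ∀ x ∈ B, x ∈ Set.range (expand k p)) :
    LinearIndependent B (fun a : Fin p => jqModC k ^ (a : ℕ)) := by
  rw [Fintype.linearIndependent_iff]
  intro g hg a
  have h0 : ∑ a, (g a : LaurentSeries k) * jqModC k ^ (a : ℕ) = 0 := by
    rw [← hg]
    refine Finset.sum_congr rfl ?_
    intro a _
    rw [Algebra.smul_def]
    rfl
  have := eq_zero_of_sum_mul_jq_pow hp (fun a => (g a : LaurentSeries k)) (fun a => hB _ (g a).2) h0 a
  exact Subtype.ext this

end Valuation

end Fermat.Agent.S28.Tower
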