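/-
S28 [Tower] (helper32), layer 2: the degree of `j(q^p)` over an intermediate field (dichotomy),
integrality of the generators, the key non-membership `j(q^p) ∉ k(j(q^d) : d ∣ M)` for
`p ∤ M`, and the induction `ψ(N) ≤ [k(j(q^d) : d ∣ N) : k(j)]`.

Everything here is conditional on `TowerInputs k` = the Plan statements of the packages
[ModEqK] (`exists_modEq`, `ModEq.factor_subst`, `ModEq.aeval_eq_zero`, `ModEq.aeval_eq_zero'`)
and [Prime] (`expand_jq_not_mem`), so that this file does not wait for them; `S28/Tower.lean`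
discharges the hypothesis.
-/
import Mathlib
import Fermat.Prelude.Def_ModularCurve_IgusaScheme
import Fermat.Prelude.Def_ModularCurve_X0ModL
import Fermat.Agent.Lib.Gamma0Count
import Fermat.Agent.S28.Defs
import Fermat.Agent.S28.Subst
import Fermat.Agent.S28.Dichotomy
import Fermat.Agent.S28.Tower.Basic

set_option autoImplicit false

noncomputable section

namespace Fermat.Agent.S28.Tower

open ModularCurve Polynomial IntermediateField

section Inputs

/-- The inputs of the tower induction over the field `k`: the Plan statements of [ModEqK] and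
[Prime], verbatim, as one hypothesis. -/
def TowerInputs (k : Type*) [Field k] : Prop :=
  (∀ (p : ℕ), p.Prime → ∀ ζ : kˣ, IsPrimitiveRoot ζ p → Nonempty (ModEq k p ζ)) ∧
  (∀ (p : ℕ) (ζ : kˣ) (M : ModEq k p ζ), p.Prime → ∀ (ξ : kˣ) (m : ℕ), m ≠ 0 →
    M.Φ.map (Polynomial.aeval (yS k (ξ ^ p) (p * m))).toRingHom =
      (X - C (yS k (ξ ^ (p ^ 2)) (p ^ 2 * m))) *
        ∏ b ∈ Finset.range p, (X - C (yS k (ζ ^ b * ξ) m))) ∧
  (∀ (p : ℕ) (ζ : kˣ) (M : ModEq k p ζ), p.Prime → ∀ (ξ : kˣ) (m : ℕ), m ≠ 0 →
    (M.Φ.map (Polynomial.aeval (yS k (ξ ^ p) (p * m))).toRingHom).eval (yS k ξ m) = 0) ∧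
  (∀ (p : ℕ) (ζ : kˣ) (M : ModEq k p ζ), p.Prime → ∀ (ξ : kˣ) (m : ℕ), m ≠ 0 →
    (M.Φ.map (Polynomial.aeval (yS k ξ m)).toRingHom).eval (yS k (ξ ^ p) (p * m)) = 0) ∧
  (∀ (p : ℕ), p.Prime → (p : k) ≠ 0 →
    expand k p (jqModC k) ∉ IntermediateField.adjoin k {jqModC k})

variable {k : Type*} [Field k] {p : ℕ} {ζ : kˣ}

theorem TowerInputs.modEq (H : TowerInputs k) (hp : p.Prime) (ζ : kˣ)
    (hζ : IsPrimitiveRoot ζ p) : Nonempty (ModEq k p ζ) :=
  H.1 p hp ζ hζ

theorem TowerInputs.factor_subst (H : TowerInputs k) (M : ModEq k p ζ) (hp : p.Prime) (ξ : kˣ)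
    {m : ℕ} (hm : m ≠ 0) :
    M.Φ.map (Polynomial.aeval (yS k (ξ ^ p) (p * m))).toRingHom =
      (X - C (yS k (ξ ^ (p ^ 2)) (p ^ 2 * m))) *
        ∏ b ∈ Finset.range p, (X - C (yS k (ζ ^ b * ξ) m)) :=
  H.2.1 p ζ M hp ξ m hm

theorem TowerInputs.aeval_eq_zero (H : TowerInputs k) (M : ModEq k p ζ) (hp : p.Prime) (ξ : kˣ)
    {m : ℕ} (hm : m ≠ 0) :
    (M.Φ.map (Polynomial.aeval (yS k (ξ ^ p) (p * m))).toRingHom).eval (yS k ξ m) = 0 :=
  H.2.2.1 p ζ M hp ξ m hm

theorem TowerInputs.aeval_eq_zero' (H : TowerInputs k) (M : ModEq k p ζ) (hp : p.Prime) (ξ : kˣ)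
    {m : ℕ} (hm : m ≠ 0) :
    (M.Φ.map (Polynomial.aeval (yS k ξ m)).toRingHom).eval (yS k (ξ ^ p) (p * m)) = 0 :=
  H.2.2.2.1 p ζ M hp ξ m hm

theorem TowerInputs.not_mem (H : TowerInputs k) (hp : p.Prime) (hpk : (p : k) ≠ 0) :
    expand k p (jqModC k) ∉ IntermediateField.adjoin k {jqModC k} :=
  H.2.2.2.2 p hp hpk

end Inputs

section Dichot

/-- ring-hom form of the dichotomy. -/
theorem irreducible_or_mem_range_hom {L Ω : Type*} [Field L] [Field Ω] (φ : L →+* Ω)
    (f : Polynomial L) {ι : Type*} [Fintype ι] [Nonempty ι] (α₀ : Ω) (α : ι → Ω)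
    (hα : Function.Injective α)
    (hfac : f.map φ = (X - C α₀) * ∏ i, (X - C (α i)))
    (htrans : ∀ i j, ∃ ρ : Ω →+* Ω, (∀ x : L, ρ (φ x) = φ x) ∧ ρ (α i) = α j) :
    Irreducible f ∨ α₀ ∈ φ.range := by
  let _ := φ.toAlgebra
  exact irreducible_or_mem_range f α₀ α hα hfac htrans

variable {k : Type*} [Field k] {p : ℕ} {ζ : kˣ}

theorem irreducible_phiAt_or_mem (Mφ : ModEq k p ζ) (hp : p.Prime) (hζ : IsPrimitiveRoot ζ p)
    (L : IntermediateField k (LaurentSeries k)) (hj : jqModC k ∈ L) :
    Irreducible (phiAt Mφ.Φ (⟨jqModC k, hj⟩ : L)) ∨ expand k p (jqModC k) ∈ L := by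
  have hp0 : p ≠ 0 := hp.ne_zero
  have : Nonempty (Fin p) := ⟨⟨0, hp.pos⟩⟩
  let φ : L →ₐ[k] LaurentSeries k := (expandAlg k p).comp L.val
  have hfac : (phiAt Mφ.Φ (⟨jqModC k, hj⟩ : L)).map (φ : L →+* LaurentSeries k) =
      (X - C (expand k (p ^ 2) (jqModC k))) *
        ∏ i : Fin p, (X - C (scale (ζ ^ (i : ℕ)) (jqModC k))) := by
    rw [phiAt_map]
    show phiAt Mφ.Φ (expand k p (jqModC k)) = _
    rw [phiAt_def, Mφ.factor, Finset.prod_range]
  have hα : Function.Injective (fun i : Fin p => scale (ζ ^ (i : ℕ)) (jqModC k)) := by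
    intro a b hab
    have h1 := congrArg (fun f : LaurentSeries k => f.coeff (-1)) hab
    simp only [scale_coeff, coeff_jqModC_neg_one, mul_one] at h1
    have h2 : (ζ ^ (a : ℕ)) ^ (-1 : ℤ) = (ζ ^ (b : ℕ)) ^ (-1 : ℤ) := Units.ext h1
    have h3 : ζ ^ (a : ℕ) = ζ ^ (b : ℕ) := by
      simpa using h2
    exact Fin.ext (hζ.pow_inj a.2 b.2 h3)
  have htrans : ∀ a b : Fin p, ∃ ρ : LaurentSeries k →+* LaurentSeries k,
      (∀ x : L, ρ ((φ : L →+* LaurentSeries k) x) = (φ : L →+* LaurentSeries k) x) ∧
        ρ (scale (ζ ^ (a : ℕ)) (jqModC k)) = scale (ζ ^ (b : ℕ)) (jqModC k) := by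
    intro a b
    refine ⟨scale (ζ ^ ((b : ℕ) + (p - (a : ℕ)))), ?_, ?_⟩
    · intro x
      apply scale_eq_self_of_mem_range_expand _ hp0
      · rw [← pow_mul, mul_comm, pow_mul, hζ.pow_eq_one, one_pow]
      · exact ⟨_, rfl⟩
    · rw [scale_scale, ← pow_add]
      have hab : (b : ℕ) + (p - (a : ℕ)) + (a : ℕ) = (b : ℕ) + p := by
        have := a.2
        omega
      rw [hab, pow_add, hζ.pow_eq_one, mul_one]
  rcases irreducible_or_mem_range_hom (φ : L →+* LaurentSeries k) _ _
    (fun i : Fin p => scale (ζ ^ (i : ℕ)) (jqModC k)) hα hfac htrans with h | h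
  · exact Or.inl h
  · right
    obtain ⟨x, hx⟩ := h
    have hx' : expand k p (x : LaurentSeries k) = expand k p (expand k p (jqModC k)) := by
      rw [expand_expand hp0 hp0, ← sq]
      exact hx
    have hx'' := expand_injective hp0 hx'
    rw [← hx'']
    exact x.2

theorem aeval_expand_phiAt (H : TowerInputs k) (Mφ : ModEq k p ζ) (hp : p.Prime)
    (L : IntermediateField k (LaurentSeries k)) (hj : jqModC k ∈ L) :
    Polynomial.aeval (expand k p (jqModC k)) (phiAt Mφ.Φ (⟨jqModC k, hj⟩ : L)) = 0 := by
  rw [Polynomial.aeval_def, ← Polynomial.eval_map]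
  have h1 : (phiAt Mφ.Φ (⟨jqModC k, hj⟩ : L)).map (algebraMap L (LaurentSeries k)) =
      phiAt Mφ.Φ (jqModC k) := phiAt_map L.val Mφ.Φ ⟨jqModC k, hj⟩
  rw [h1]
  have h0 := H.aeval_eq_zero' Mφ hp 1 (m := 1) one_ne_zero
  rw [one_pow, mul_one, yS_one_left, yS_one_left, expand_one] at h0
  exact h0

theorem minpoly_expand_eq (H : TowerInputs k) (Mφ : ModEq k p ζ) (hp : p.Prime) (hζ : IsPrimitiveRoot ζ p)
    (L : IntermediateField k (LaurentSeries k)) (hj : jqModC k ∈ L)
    (hy : expand k p (jqModC k) ∉ L) :
    minpoly L (expand k p (jqModC k)) = phiAt Mφ.Φ (⟨jqModC k, hj⟩ : L) := by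
  have hirr := (irreducible_phiAt_or_mem Mφ hp hζ L hj).resolve_right hy
  exact (minpoly.eq_of_irreducible_of_monic hirr (aeval_expand_phiAt H Mφ hp L hj)
    (phiAt_monic Mφ.monic _)).symm

/-- If `j(q^p) ∉ L` then `1, j(q^p), …, j(q^p)^p` are independent over `L`. -/
theorem linearIndependent_pow_expand (H : TowerInputs k) (Mφ : ModEq k p ζ) (hp : p.Prime) (hζ : IsPrimitiveRoot ζ p)
    (L : IntermediateField k (LaurentSeries k)) (hj : jqModC k ∈ L)
    (hy : expand k p (jqModC k) ∉ L) :
    LinearIndependent L (fun i : Fin (p + 1) => expand k p (jqModC k) ^ (i : ℕ)) := by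
  have hdeg : (minpoly L (expand k p (jqModC k))).natDegree = p + 1 := by
    rw [minpoly_expand_eq H Mφ hp hζ L hj hy, phiAt_natDegree Mφ.monic, Mφ.natDegree_eq]
  exact (linearIndependent_pow (K := L) (expand k p (jqModC k))).comp (Fin.cast hdeg.symm)
    (Fin.cast_injective _)

end Dichot

section Integrality

theorem isIntegral_of_monic_of_coeff {R A : Type*} [CommRing R] [CommRing A] [Algebra R A]
    (P : Polynomial A) (hP : P.Monic) (hc : ∀ i, IsIntegral R (P.coeff i)) (x : A)
    (hx : P.eval x = 0) : IsIntegral R x := by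
  have hl : P ∈ Polynomial.lifts (algebraMap (integralClosure R A) A) := by
    rw [Polynomial.lifts_iff_coeff_lifts]
    intro n
    exact ⟨⟨P.coeff n, hc n⟩, rfl⟩
  obtain ⟨Q, hQ, -, hQm⟩ := Polynomial.lifts_and_natDegree_eq_and_monic hl hP
  have hx' : IsIntegral (integralClosure R A) x :=
    ⟨Q, hQm, by rw [← Polynomial.eval_map, hQ]; exact hx⟩
  exact isIntegral_trans x hx'

variable {k : Type*} [Field k]

theorem isIntegral_aeval_of_isIntegral (L : IntermediateField k (LaurentSeries k))
    {z : LaurentSeries k} (hz : IsIntegral L z) (q : Polynomial k) :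
    IsIntegral L (Polynomial.aeval z q) := by
  have h1 : Polynomial.aeval z q ∈ Algebra.adjoin k {z} := Polynomial.aeval_mem_adjoin_singleton k z
  have h2 : Algebra.adjoin k {z} ≤ (integralClosure L (LaurentSeries k)).restrictScalars k := by
    apply Algebra.adjoin_le
    intro w hw
    rw [Set.mem_singleton_iff] at hw
    subst hw
    exact hz
  exact h2 h1

theorem natCast_ne_zero_of_dvd {a b : ℕ} (h : a ∣ b) (hb : (b : k) ≠ 0) : (a : k) ≠ 0 := by
  obtain ⟨c, rfl⟩ := h
  intro ha
  apply hb
  rw [Nat.cast_mul, ha, zero_mul]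

theorem exists_modEq_of_prime [IsAlgClosed k] (H : TowerInputs k) {p : ℕ} (hp : p.Prime)
    (hpk : (p : k) ≠ 0) :
    ∃ ζ : kˣ, IsPrimitiveRoot ζ p ∧ Nonempty (ModEq k p ζ) := by
  have : NeZero (p : k) := ⟨hpk⟩
  obtain ⟨z, hz⟩ := HasEnoughRootsOfUnity.exists_primitiveRoot k p
  have hu : IsUnit z := hz.isUnit hp.ne_zero
  obtain ⟨ζ, rfl⟩ := hu
  have hζ : IsPrimitiveRoot ζ p := IsPrimitiveRoot.coe_units_iff.mp hz
  exact ⟨ζ, hζ, H.modEq hp ζ hζ⟩

/-- every `j(q^d)` with `d` prime to the characteristic is integral over any intermediate field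
containing `j`. -/
theorem isIntegral_expand_jq [IsAlgClosed k] (H : TowerInputs k)
    (L : IntermediateField k (LaurentSeries k))
    (hj : jqModC k ∈ L) (d : ℕ) (hd : (d : k) ≠ 0) : IsIntegral L (expand k d (jqModC k)) := by
  induction d using Nat.strong_induction_on with
  | _ d ih =>
    by_cases hd1 : d = 1
    · subst hd1
      rw [expand_one]
      exact isIntegral_algebraMap (x := (⟨jqModC k, hj⟩ : L))
    · have hp' : d.minFac.Prime := Nat.minFac_prime hd1
      have hd0 : d ≠ 0 := by
        rintro rfl
        exact hd Nat.cast_zero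
      obtain ⟨d', hd'⟩ := Nat.minFac_dvd d
      have hd'0 : d' ≠ 0 := by
        rintro rfl
        exact hd0 (by rw [hd', mul_zero])
      have hd'lt : d' < d := by
        have h2 := hp'.two_le
        have hpos : 0 < d' := Nat.pos_of_ne_zero hd'0
        calc d' = 1 * d' := (one_mul d').symm
          _ < d.minFac * d' := Nat.mul_lt_mul_of_pos_right (by omega) hpos
          _ = d := hd'.symm
      have hd'k : (d' : k) ≠ 0 := natCast_ne_zero_of_dvd ⟨d.minFac, by rw [mul_comm]; exact hd'⟩ hd
      have hpk : ((d.minFac : ℕ) : k) ≠ 0 := natCast_ne_zero_of_dvd (Nat.minFac_dvd d) hd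
      have hz := ih d' hd'lt hd'k
      obtain ⟨ζ, hζ, ⟨Mφ⟩⟩ := exists_modEq_of_prime H hp' hpk
      have h0 := H.aeval_eq_zero' Mφ hp' 1 (m := d') hd'0
      rw [one_pow, yS_one_left, yS_one_left, ← hd'] at h0
      refine isIntegral_of_monic_of_coeff (phiAt Mφ.Φ (expand k d' (jqModC k)))
        (phiAt_monic Mφ.monic _) ?_ _ h0
      intro i
      rw [phiAt_def, Polynomial.coeff_map]
      exact isIntegral_aeval_of_isIntegral L hz _

end Integrality

section NonMem

variable {k : Type*} [Field k]

/-- the key step: for `p ∤ M`, `j(q^p) ∉ k(j(q^d) : d ∣ M)`.  (`Ω` = any algebraically closed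
field containing `k((q))`.) -/
theorem expand_not_mem_towerField_aux [IsAlgClosed k] (H : TowerInputs k) {p M : ℕ}
    (hp : p.Prime) (hM : M ≠ 0)
    (hpM : ¬ p ∣ M) (hpk : (p : k) ≠ 0) (hMk : (M : k) ≠ 0)
    (Ω : Type*) [Field Ω] [IsAlgClosed Ω] [Algebra k Ω] (ι' : LaurentSeries k →ₐ[k] Ω) :
    expand k p (jqModC k) ∉ towerField k M := by
  intro hmem
  have hp0 : p ≠ 0 := hp.ne_zero
  obtain ⟨ζ, hζ, ⟨Mφ⟩⟩ := exists_modEq_of_prime H hp hpk
  have hjK : jqModC k ∈ towerField k 1 := jq_mem_towerField 1
  have hy1 : expand k p (jqModC k) ∉ towerField k 1 := by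
    rw [towerField_one]
    exact H.not_mem hp hpk
  have hmin := minpoly_expand_eq H Mφ hp hζ (towerField k 1) hjK hy1
  let φ₀ : towerField k 1 →ₐ[k] Ω := (ι'.comp (expandAlg k (p * M))).comp (towerField k 1).val
  let algΩ : Algebra (towerField k 1) Ω := (φ₀ : towerField k 1 →+* Ω).toAlgebra
  have halg : ∀ x : towerField k 1,
      algebraMap (towerField k 1) Ω x = ι' (expand k (p * M) (x : LaurentSeries k)) :=
    fun x => rfl
  have hS : ∀ s ∈ genSet k M, IsIntegral (towerField k 1) s ∧
      ((minpoly (towerField k 1) s).map (algebraMap (towerField k 1) Ω)).Splits := by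
    rintro s ⟨d, hd, rfl⟩
    exact ⟨isIntegral_expand_jq H (towerField k 1) hjK d (natCast_ne_zero_of_dvd hd hMk),
      IsAlgClosed.splits _⟩
  have hle : towerField k M ≤
      (IntermediateField.adjoin (towerField k 1) (genSet k M)).restrictScalars k :=
    IntermediateField.adjoin_le_iff.mpr
      (IntermediateField.subset_adjoin (towerField k 1) (genSet k M))
  have hxmem : expand k p (jqModC k) ∈ IntermediateField.adjoin (towerField k 1) (genSet k M) :=
    hle hmem
  have hy : Polynomial.aeval (ι' (yS k 1 M))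
      (minpoly (towerField k 1) (expand k p (jqModC k))) = 0 := by
    rw [hmin, Polynomial.aeval_def, ← Polynomial.eval_map]
    have h1 : (phiAt Mφ.Φ (⟨jqModC k, hjK⟩ : towerField k 1)).map
        (algebraMap (towerField k 1) Ω) =
        phiAt Mφ.Φ (ι' (expand k (p * M) (jqModC k))) := phiAt_map φ₀ Mφ.Φ ⟨jqModC k, hjK⟩
    rw [h1, phiAt_eval_map ι']
    have h0 := H.aeval_eq_zero Mφ hp 1 (m := M) hM
    rw [one_pow, yS_one_left (p * M)] at h0
    rw [phiAt_def, h0, map_zero]
  obtain ⟨ψ, hψ⟩ := IntermediateField.exists_algHom_adjoin_of_splits_of_aeval hS hxmem hy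
  -- `k`-algebra versions of the inclusion and of `ψ`
  let valk : IntermediateField.adjoin (towerField k 1) (genSet k M) →ₐ[k] LaurentSeries k :=
    (IntermediateField.adjoin (towerField k 1) (genSet k M)).val.restrictScalars k
  let ψk : IntermediateField.adjoin (towerField k 1) (genSet k M) →ₐ[k] Ω :=
    { (ψ : IntermediateField.adjoin (towerField k 1) (genSet k M) →+* Ω) with
      commutes' := fun c => by
        show ψ (algebraMap (towerField k 1) _ (algebraMap k (towerField k 1) c)) =
          algebraMap k Ω c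
        rw [ψ.commutes, halg]
        show ι' (expand k (p * M) (algebraMap k (LaurentSeries k) c)) = _
        rw [expand_algebraMap, ι'.commutes] }
  have hψk : ∀ x, ψk x = ψ x := fun x => rfl
  have hchain : ∀ d : ℕ, d ∣ M → ∃ (ξ : kˣ) (m : ℕ), p * (M / d) ∣ m ∧ m ≠ 0 ∧
      ∀ h : expand k d (jqModC k) ∈ IntermediateField.adjoin (towerField k 1) (genSet k M),
        ψ ⟨expand k d (jqModC k), h⟩ = ι' (yS k ξ m) := by
    intro d
    induction d using Nat.strong_induction_on with
    | _ d ih =>
      intro hdM
      by_cases hd1 : d = 1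
      · subst hd1
        refine ⟨1, p * M, by rw [Nat.div_one], Nat.mul_ne_zero hp0 hM, ?_⟩
        intro h
        have h1 : (⟨expand k 1 (jqModC k), h⟩ :
            IntermediateField.adjoin (towerField k 1) (genSet k M)) =
            algebraMap (towerField k 1) _ ⟨jqModC k, hjK⟩ := by
          apply Subtype.ext
          show expand k 1 (jqModC k) = jqModC k
          exact expand_one _
        rw [h1, ψ.commutes, halg, yS_one_left]
      · have hd0 : d ≠ 0 := by
          rintro rfl
          exact hM (Nat.eq_zero_of_zero_dvd hdM)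
        obtain ⟨p', hp', d', hd'⟩ : ∃ p' : ℕ, p'.Prime ∧ ∃ d', d = p' * d' :=
          ⟨d.minFac, Nat.minFac_prime hd1, Nat.minFac_dvd d⟩
        have hd'0 : d' ≠ 0 := by
          rintro rfl
          exact hd0 (by rw [hd', mul_zero])
        have hd'lt : d' < d := by
          have h2 := hp'.two_le
          have hpos : 0 < d' := Nat.pos_of_ne_zero hd'0
          calc d' = 1 * d' := (one_mul d').symm
            _ < p' * d' := Nat.mul_lt_mul_of_pos_right (by omega) hpos
            _ = d := hd'.symm
        have hd'd : d' ∣ d := ⟨p', by rw [mul_comm]; exact hd'⟩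
        have hp'd : p' ∣ d := ⟨d', hd'⟩
        have hd'M : d' ∣ M := hd'd.trans hdM
        obtain ⟨ξ, m, hm, hm0, hψd'⟩ := ih d' hd'lt hd'M
        have hp'k : (p' : k) ≠ 0 := natCast_ne_zero_of_dvd (hp'd.trans hdM) hMk
        obtain ⟨ζ', hζ', ⟨M'⟩⟩ := exists_modEq_of_prime H hp' hp'k
        obtain ⟨e, he⟩ := hdM
        have hMd : M / d = e := by
          rw [he]
          exact Nat.mul_div_cancel_left e (Nat.pos_of_ne_zero hd0)
        have hMd' : M / d' = p' * e := by
          rw [he, hd', mul_comm p' d', mul_assoc]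
          exact Nat.mul_div_cancel_left _ (Nat.pos_of_ne_zero hd'0)
        rw [hMd'] at hm
        obtain ⟨m', rfl⟩ : p' ∣ m := Dvd.dvd.trans ⟨p * e, by ring⟩ hm
        have hm'0 : m' ≠ 0 := by
          rintro rfl
          exact hm0 (mul_zero _)
        have hm' : p * e ∣ m' := by
          have h3 : p' * (p * e) ∣ p' * m' := by
            rwa [show p' * (p * e) = p * (p' * e) by ring]
          exact Nat.dvd_of_mul_dvd_mul_left hp'.pos h3
        obtain ⟨z, hz⟩ := IsAlgClosed.exists_pow_nat_eq (ξ : k) hp'.pos
        have hz0 : z ≠ 0 := by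
          rintro rfl
          rw [zero_pow hp'.ne_zero] at hz
          exact ξ.ne_zero hz.symm
        have hξ : ξ = (Units.mk0 z hz0) ^ p' :=
          Units.ext (by rw [Units.val_pow_eq_pow_val]; exact hz.symm)
        have hrel := H.aeval_eq_zero' M' hp' 1 (m := d') hd'0
        rw [one_pow, yS_one_left, yS_one_left, ← hd'] at hrel
        have hd'F : expand k d' (jqModC k) ∈
            IntermediateField.adjoin (towerField k 1) (genSet k M) :=
          IntermediateField.subset_adjoin (towerField k 1) _ (mem_genSet hd'M)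
        have hdF : expand k d (jqModC k) ∈
            IntermediateField.adjoin (towerField k 1) (genSet k M) :=
          IntermediateField.subset_adjoin (towerField k 1) _ (mem_genSet ⟨e, he⟩)
        have hrelF : (phiAt M'.Φ (⟨_, hd'F⟩ :
            IntermediateField.adjoin (towerField k 1) (genSet k M))).eval ⟨_, hdF⟩ = 0 := by
          have h4 := phiAt_eval_map valk M'.Φ ⟨_, hd'F⟩ ⟨_, hdF⟩
          have h5 : valk ((phiAt M'.Φ (⟨_, hd'F⟩ :
              IntermediateField.adjoin (towerField k 1) (genSet k M))).eval ⟨_, hdF⟩) = 0 := by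
            rw [← h4]
            exact hrel
          exact (map_eq_zero valk).mp h5
        have hrelΩ : (phiAt M'.Φ (ψk ⟨_, hd'F⟩)).eval (ψk ⟨_, hdF⟩) = 0 := by
          rw [phiAt_eval_map ψk, hrelF, map_zero]
        have hψa : ψk ⟨_, hd'F⟩ = ι' (yS k ((Units.mk0 z hz0) ^ p') (p' * m')) := by
          rw [← hξ]
          exact hψd' hd'F
        rw [hψa, ← phiAt_map ι', phiAt_def, H.factor_subst M' hp' (Units.mk0 z hz0) hm'0] at hrelΩ
        simp only [Polynomial.map_mul, Polynomial.map_sub, Polynomial.map_X, Polynomial.map_C,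
          Polynomial.map_prod, Polynomial.eval_mul, Polynomial.eval_sub, Polynomial.eval_X,
          Polynomial.eval_C, Polynomial.eval_prod] at hrelΩ
        rcases mul_eq_zero.mp hrelΩ with h | h
        · refine ⟨(Units.mk0 z hz0) ^ (p' ^ 2), p' ^ 2 * m', ?_, ?_, ?_⟩
          · rw [hMd]
            exact hm'.trans (Dvd.intro_left _ rfl)
          · exact Nat.mul_ne_zero (pow_ne_zero _ hp'.ne_zero) hm'0
          · intro h'
            exact sub_eq_zero.mp h
        · obtain ⟨b, -, hb⟩ := Finset.prod_eq_zero_iff.mp h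
          refine ⟨ζ' ^ b * (Units.mk0 z hz0), m', ?_, hm'0, ?_⟩
          · rw [hMd]
            exact hm'
          · intro h'
            exact sub_eq_zero.mp hb
  have hT : ∀ x (hx : x ∈ IntermediateField.adjoin (towerField k 1) (genSet k M)),
      ∃ f : LaurentSeries k, ψ ⟨x, hx⟩ = ι' (expand k p f) := by
    intro x hx
    induction hx using IntermediateField.adjoin_induction with
    | mem x hx =>
      obtain ⟨d, hd, rfl⟩ := hx
      obtain ⟨ξ, m, hm, hm0, hψd⟩ := hchain d hd
      have hpm : p ∣ m := (Dvd.intro _ rfl).trans hm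
      obtain ⟨f, hf⟩ := (yS_mem_range_expand_iff hm0 hp0 ξ).mpr hpm
      exact ⟨f, by rw [hψd, hf]⟩
    | algebraMap x =>
      refine ⟨expand k M (x : LaurentSeries k), ?_⟩
      have h1 : (⟨algebraMap (towerField k 1) (LaurentSeries k) x,
          IntermediateField.algebraMap_mem _ x⟩ :
          IntermediateField.adjoin (towerField k 1) (genSet k M)) =
          algebraMap (towerField k 1) _ x := rfl
      rw [h1, ψ.commutes, halg, expand_expand hp0 hM]
    | add x y hx hy ihx ihy =>
      obtain ⟨f, hf⟩ := ihx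
      obtain ⟨g, hg⟩ := ihy
      refine ⟨f + g, ?_⟩
      have h1 : (⟨x + y, add_mem hx hy⟩ :
          IntermediateField.adjoin (towerField k 1) (genSet k M)) = ⟨x, hx⟩ + ⟨y, hy⟩ := rfl
      rw [h1, map_add, hf, hg, map_add, map_add]
    | inv x hx ihx =>
      obtain ⟨f, hf⟩ := ihx
      refine ⟨f⁻¹, ?_⟩
      have h1 : (⟨x⁻¹, inv_mem hx⟩ :
          IntermediateField.adjoin (towerField k 1) (genSet k M)) = (⟨x, hx⟩)⁻¹ := rfl
      rw [h1, map_inv₀, hf, map_inv₀, map_inv₀]
    | mul x y hx hy ihx ihy =>
      obtain ⟨f, hf⟩ := ihx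
      obtain ⟨g, hg⟩ := ihy
      refine ⟨f * g, ?_⟩
      have h1 : (⟨x * y, mul_mem hx hy⟩ :
          IntermediateField.adjoin (towerField k 1) (genSet k M)) = ⟨x, hx⟩ * ⟨y, hy⟩ := rfl
      rw [h1, map_mul, hf, hg, map_mul, map_mul]
  obtain ⟨f, hf⟩ := hT _ hxmem
  rw [hψ] at hf
  have hinj : Function.Injective ι' := (ι' : LaurentSeries k →+* Ω).injective
  have hf' := hinj hf
  exact hpM ((yS_mem_range_expand_iff hM hp0 1).mp ⟨f, hf'.symm⟩)

theorem expand_not_mem_towerField [IsAlgClosed k] (H : TowerInputs k) {p M : ℕ} (hp : p.Prime)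
    (hM : M ≠ 0)
    (hpM : ¬ p ∣ M) (hpk : (p : k) ≠ 0) (hMk : (M : k) ≠ 0) :
    expand k p (jqModC k) ∉ towerField k M :=
  expand_not_mem_towerField_aux H hp hM hpM hpk hMk (AlgebraicClosure (LaurentSeries k))
    (IsScalarTower.toAlgHom k (LaurentSeries k) (AlgebraicClosure (LaurentSeries k)))

end NonMem

section Induction

/-- `[F(y, j) : F(y)] ≤ deg P` when `j` is a root of the monic `P ∈ F(y)[X]`. -/
theorem relrank_adjoin_pair_le {F E : Type*} [Field F] [Field E] [Algebra F E] (y j : E)
    (P : Polynomial (IntermediateField.adjoin F {y})) (hP : P.Monic)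
    (hroot : Polynomial.aeval j P = 0) :
    IntermediateField.relrank (IntermediateField.adjoin F {y})
      (IntermediateField.adjoin F ({y} ∪ {j})) ≤ (P.natDegree : Cardinal) := by
  have hle : IntermediateField.adjoin F {y} ≤ IntermediateField.adjoin F ({y} ∪ {j}) :=
    IntermediateField.adjoin.mono F _ _ Set.subset_union_left
  rw [IntermediateField.relrank_eq_rank_of_le hle]
  have heq : IntermediateField.extendScalars hle =
      IntermediateField.adjoin (IntermediateField.adjoin F {y}) {j} := by
    apply IntermediateField.restrictScalars_injective F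
    rw [IntermediateField.adjoin_adjoin_left]
    rfl
  rw [heq]
  have hint : IsIntegral (IntermediateField.adjoin F {y}) j := ⟨P, hP, hroot⟩
  have := IntermediateField.adjoin.finiteDimensional hint
  rw [← Module.finrank_eq_rank, IntermediateField.adjoin.finrank hint]
  exact_mod_cast Polynomial.natDegree_le_natDegree (minpoly.min _ j hP hroot)

variable {k : Type*} [Field k]

/-- (T) the degree bound: `ψ(N) ≤ [k(j(q^d) : d ∣ N) : k(j)]`. -/
theorem dedekindPsi_le_relrank [IsAlgClosed k] (H : TowerInputs k) (N : ℕ) (hN : (N : k) ≠ 0) :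
    (dedekindPsi N : Cardinal) ≤
      IntermediateField.relrank (towerField k 1) (towerField k N) := by
  induction N using Nat.strong_induction_on with
  | _ N ih =>
    by_cases hN1 : N = 1
    · subst hN1
      rw [dedekindPsi_one, IntermediateField.relrank_self, Nat.cast_one]
    · have hN0 : N ≠ 0 := by
        rintro rfl
        exact hN Nat.cast_zero
      obtain ⟨p, hp, M, hNM⟩ : ∃ p : ℕ, p.Prime ∧ ∃ M, N = p * M :=
        ⟨N.minFac, Nat.minFac_prime hN1, Nat.minFac_dvd N⟩
      subst hNM
      have hp0 : p ≠ 0 := hp.ne_zero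
      have hM0 : M ≠ 0 := by
        rintro rfl
        exact hN0 (mul_zero _)
      have hMlt : M < p * M := by
        have h2 := hp.two_le
        have hpos : 0 < M := Nat.pos_of_ne_zero hM0
        calc M = 1 * M := (one_mul M).symm
          _ < p * M := Nat.mul_lt_mul_of_pos_right (by omega) hpos
      have hpk : (p : k) ≠ 0 := natCast_ne_zero_of_dvd (Dvd.intro _ rfl) hN
      have hMk : (M : k) ≠ 0 := natCast_ne_zero_of_dvd (Dvd.intro_left _ rfl) hN
      have ihM := ih M hMlt hMk
      obtain ⟨ζ, hζ, ⟨Mφ⟩⟩ := exists_modEq_of_prime H hp hpk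
      have hyN : expand k p (jqModC k) ∈ towerField k (p * M) :=
        expand_mem_towerField (Dvd.intro _ rfl)
      have h1M : towerField k 1 ≤ towerField k M := towerField_mono (one_dvd M)
      have hMN : towerField k M ≤ towerField k (p * M) := towerField_mono (Dvd.intro_left _ rfl)
      by_cases hpM : p ∣ M
      · rw [Fermat.Agent.Lib.Gamma0Count.dedekindPsi_mul_of_dvd hp hM0 hpM]
        have hy1 : expand k p (jqModC k) ∉ towerField k 1 := by
          rw [towerField_one]
          exact H.not_mem hp hpk
        have hB : (towerField k M).map (expandAlg k p) ≤ towerField k (p * M) :=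
          map_expandAlg_towerField_le hp0 hM0
        have hK₁B : (towerField k 1).map (expandAlg k p) ≤
            (towerField k M).map (expandAlg k p) := IntermediateField.map_mono _ h1M
        have e1 : IntermediateField.relrank ((towerField k 1).map (expandAlg k p))
            ((towerField k M).map (expandAlg k p)) =
            IntermediateField.relrank (towerField k 1) (towerField k M) :=
          IntermediateField.relrank_map_map _ _ _
        have e2 : (p : Cardinal) ≤ IntermediateField.relrank
            ((towerField k M).map (expandAlg k p)) (towerField k (p * M)) :=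
          natCast_le_relrank hB (fun a : Fin p => jqModC k ^ (a : ℕ))
            (fun a => pow_mem (jq_mem_towerField _) _)
            (linearIndependent_jq_pow hp0 _ (fun x hx => mem_range_expand_of_mem_map hx))
        have e3 := IntermediateField.relrank_mul_relrank hK₁B hB
        have hK₁ : (towerField k 1).map (expandAlg k p) =
            IntermediateField.adjoin k {expand k p (jqModC k)} := map_expandAlg_towerField_one p
        have hK₁E : (towerField k 1).map (expandAlg k p) ≤
            IntermediateField.adjoin k ({expand k p (jqModC k)} ∪ {jqModC k}) := by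
          rw [hK₁]
          exact IntermediateField.adjoin.mono k _ _ Set.subset_union_left
        have h1E : towerField k 1 ≤
            IntermediateField.adjoin k ({expand k p (jqModC k)} ∪ {jqModC k}) := by
          rw [towerField_one]
          exact IntermediateField.adjoin.mono k _ _ Set.subset_union_right
        have hEN : IntermediateField.adjoin k ({expand k p (jqModC k)} ∪ {jqModC k}) ≤
            towerField k (p * M) := by
          apply IntermediateField.adjoin_le_iff.mpr
          rintro x (hx | hx)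
          · rw [Set.mem_singleton_iff] at hx
            subst hx
            exact hyN
          · rw [Set.mem_singleton_iff] at hx
            subst hx
            exact jq_mem_towerField _
        have e4 := IntermediateField.relrank_mul_relrank hK₁E hEN
        have e5 := IntermediateField.relrank_mul_relrank h1E hEN
        have e6 : IntermediateField.relrank ((towerField k 1).map (expandAlg k p))
            (IntermediateField.adjoin k ({expand k p (jqModC k)} ∪ {jqModC k})) ≤
            ((p + 1 : ℕ) : Cardinal) := by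
          rw [hK₁]
          have hyK : expand k p (jqModC k) ∈
              IntermediateField.adjoin k {expand k p (jqModC k)} :=
            IntermediateField.subset_adjoin k _ (Set.mem_singleton _)
          have hroot : Polynomial.aeval (jqModC k) (phiAt Mφ.Φ
              (⟨_, hyK⟩ : IntermediateField.adjoin k {expand k p (jqModC k)})) = 0 := by
            rw [Polynomial.aeval_def, ← Polynomial.eval_map]
            have h1 : (phiAt Mφ.Φ
                (⟨_, hyK⟩ : IntermediateField.adjoin k {expand k p (jqModC k)})).map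
                (algebraMap _ (LaurentSeries k)) = phiAt Mφ.Φ (expand k p (jqModC k)) :=
              phiAt_map (IntermediateField.val _) Mφ.Φ ⟨_, hyK⟩
            rw [h1]
            have h0 := H.aeval_eq_zero Mφ hp 1 (m := 1) one_ne_zero
            rw [one_pow, mul_one, yS_one_left, yS_one_left, expand_one] at h0
            exact h0
          have h7 := relrank_adjoin_pair_le (expand k p (jqModC k)) (jqModC k) _
            (phiAt_monic Mφ.monic _) hroot
          rwa [phiAt_natDegree Mφ.monic, Mφ.natDegree_eq] at h7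
        have e7 : ((p + 1 : ℕ) : Cardinal) ≤ IntermediateField.relrank (towerField k 1)
            (IntermediateField.adjoin k ({expand k p (jqModC k)} ∪ {jqModC k})) :=
          natCast_le_relrank h1E (fun i : Fin (p + 1) => expand k p (jqModC k) ^ (i : ℕ))
            (fun i => pow_mem (IntermediateField.subset_adjoin k _
              (Set.mem_union_left _ (Set.mem_singleton _))) _)
            (linearIndependent_pow_expand H Mφ hp hζ _ (jq_mem_towerField 1) hy1)
        calc ((p * dedekindPsi M : ℕ) : Cardinal)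
            = (dedekindPsi M : Cardinal) * (p : Cardinal) := by
              rw [Nat.cast_mul, mul_comm]
          _ ≤ IntermediateField.relrank (towerField k 1) (towerField k M) *
              IntermediateField.relrank ((towerField k M).map (expandAlg k p))
                (towerField k (p * M)) := mul_le_mul' ihM e2
          _ = IntermediateField.relrank ((towerField k 1).map (expandAlg k p))
                (towerField k (p * M)) := by rw [← e1, e3]
          _ = IntermediateField.relrank ((towerField k 1).map (expandAlg k p))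
                (IntermediateField.adjoin k ({expand k p (jqModC k)} ∪ {jqModC k})) *
              IntermediateField.relrank
                (IntermediateField.adjoin k ({expand k p (jqModC k)} ∪ {jqModC k}))
                (towerField k (p * M)) := e4.symm
          _ ≤ ((p + 1 : ℕ) : Cardinal) *
              IntermediateField.relrank
                (IntermediateField.adjoin k ({expand k p (jqModC k)} ∪ {jqModC k}))
                (towerField k (p * M)) := mul_le_mul' e6 le_rfl
          _ ≤ IntermediateField.relrank (towerField k 1)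
                (IntermediateField.adjoin k ({expand k p (jqModC k)} ∪ {jqModC k})) *
              IntermediateField.relrank
                (IntermediateField.adjoin k ({expand k p (jqModC k)} ∪ {jqModC k}))
                (towerField k (p * M)) := mul_le_mul' e7 le_rfl
          _ = IntermediateField.relrank (towerField k 1) (towerField k (p * M)) := e5
      · rw [Fermat.Agent.Lib.Gamma0Count.dedekindPsi_mul_of_not_dvd hp hM0 hpM]
        have hyM : expand k p (jqModC k) ∉ towerField k M :=
          expand_not_mem_towerField H hp hM0 hpM hpk hMk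
        have e2 : ((p + 1 : ℕ) : Cardinal) ≤
            IntermediateField.relrank (towerField k M) (towerField k (p * M)) :=
          natCast_le_relrank hMN (fun i : Fin (p + 1) => expand k p (jqModC k) ^ (i : ℕ))
            (fun i => pow_mem hyN _)
            (linearIndependent_pow_expand H Mφ hp hζ _ (jq_mem_towerField M) hyM)
        have e3 := IntermediateField.relrank_mul_relrank h1M hMN
        calc (((p + 1) * dedekindPsi M : ℕ) : Cardinal)
            = (dedekindPsi M : Cardinal) * ((p + 1 : ℕ) : Cardinal) := by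
              rw [Nat.cast_mul, mul_comm]
          _ ≤ IntermediateField.relrank (towerField k 1) (towerField k M) *
              IntermediateField.relrank (towerField k M) (towerField k (p * M)) :=
              mul_le_mul' ihM e2
          _ = IntermediateField.relrank (towerField k 1) (towerField k (p * M)) := e3

end Induction

end Fermat.Agent.S28.Tower
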