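/-
S28 [Tower] (helper32), layer 3: from the degree bound to explicit independent families, and the
descent to the prime field; still conditional on `TowerInputs` (see `S28/Tower/Step.lean`).

* `exists_linearIndependent_closed_of_inputs` (T): over an algebraically closed field `k` with
  `(N : k) ≠ 0` there are `ψ(N)` elements of `ℤ[j(q^d) : d ∣ N]` whose reductions are linearly
  independent over `k(j)`.
* `exists_linearIndependent_of_inputs` (L): the same over the prime field `𝔽_ℓ`, `ℓ ∤ N`.
-/
import Mathlib
import Fermat.Prelude.Def_ModularCurve_IgusaScheme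
import Fermat.Prelude.Def_ModularCurve_X0ModL
import Fermat.Agent.S28.Defs
import Fermat.Agent.S28.Subst
import Fermat.Agent.S28.Tower.Basic
import Fermat.Agent.S28.Tower.Step

set_option autoImplicit false

noncomputable section

namespace Fermat.Agent.S28.Tower

open ModularCurve Polynomial IntermediateField

section TowerTop

/-- `k(j(q^d) : d ∣ N)` is spanned over `k(j)` by any subring containing the generators. -/
theorem towerField_subset_span {k : Type*} [Field k] [IsAlgClosed k] (H : TowerInputs k) (N : ℕ)
    (hN : (N : k) ≠ 0) (T : Subring (LaurentSeries k)) (hT : genSet k N ⊆ T) :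
    ∀ x ∈ towerField k N,
      x ∈ Submodule.span (towerField k 1) (T : Set (LaurentSeries k)) := by
  intro x hx
  have hjK : jqModC k ∈ towerField k 1 := jq_mem_towerField 1
  have hle : towerField k N ≤
      (IntermediateField.adjoin (towerField k 1) (genSet k N)).restrictScalars k :=
    IntermediateField.adjoin_le_iff.mpr
      (IntermediateField.subset_adjoin (towerField k 1) (genSet k N))
  have hx1 : x ∈ IntermediateField.adjoin (towerField k 1) (genSet k N) := hle hx
  have halg : ∀ s ∈ genSet k N, IsAlgebraic (towerField k 1) s := by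
    rintro s ⟨d, hd, rfl⟩
    exact (isIntegral_expand_jq H (towerField k 1) hjK d
      (natCast_ne_zero_of_dvd hd hN)).isAlgebraic
  have h2 := IntermediateField.adjoin_toSubalgebra_of_isAlgebraic halg
  have hx2 : x ∈ Algebra.adjoin (towerField k 1) (genSet k N) := by
    rw [← h2]
    exact hx1
  have hx3 : x ∈ Submodule.span (towerField k 1)
      (Submonoid.closure (genSet k N) : Set (LaurentSeries k)) := by
    rw [← Algebra.adjoin_eq_span]
    exact hx2
  refine Submodule.span_mono ?_ hx3
  exact (Submonoid.closure_le (S := T.toSubmonoid)).mpr hT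

/-- (T) over an algebraically closed field of characteristic prime to `N` there are `ψ(N)`
monomials in the `j(q^d)`, `d ∣ N`, linearly independent over `k(j)`. -/
theorem exists_linearIndependent_closed_of_inputs (k : Type*) [Field k] [IsAlgClosed k]
    (H : TowerInputs k) (N : ℕ) (hN : (N : k) ≠ 0) :
    ∃ B : Fin (dedekindPsi N) → LaurentSeries ℤ,
      (∀ i, B i ∈ Subring.closure {x | ∃ d : ℕ, d ∣ N ∧ x = expand ℤ d (jqModC ℤ)}) ∧
      LinearIndependent (IntermediateField.adjoin k {jqModC k})
        (fun i => coeffMap (Int.castRingHom k) (B i)) := by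
  let T : Subring (LaurentSeries k) :=
    (Subring.closure {x | ∃ d : ℕ, d ∣ N ∧ x = expand ℤ d (jqModC ℤ)}).map
      (coeffMap (Int.castRingHom k))
  have hT : genSet k N ⊆ T := by
    rintro x ⟨d, hd, rfl⟩
    refine ⟨expand ℤ d (jqModC ℤ), Subring.subset_closure ⟨d, hd, rfl⟩, ?_⟩
    rw [coeffMap_expand, coeffMap_jqModC]
  have hspan := towerField_subset_span H N hN T hT
  obtain ⟨v, hvT, hli⟩ := exists_linearIndependent_of_le_relrank
    (towerField_mono (k := k) (one_dvd N)) (T : Set (LaurentSeries k)) hspan
    (dedekindPsi_le_relrank H N hN)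
  have hvT' : ∀ i, ∃ x ∈ Subring.closure {x | ∃ d : ℕ, d ∣ N ∧ x = expand ℤ d (jqModC ℤ)},
      coeffMap (Int.castRingHom k) x = v i := fun i => Subring.mem_map.mp (hvT i)
  choose B hB hBv using hvT'
  refine ⟨B, hB, ?_⟩
  have hli' : LinearIndependent (towerField k 1)
      (fun i => coeffMap (Int.castRingHom k) (B i)) := by
    have hfun : (fun i => coeffMap (Int.castRingHom k) (B i)) = v := funext hBv
    rw [hfun]
    exact hli
  have key : ∀ K : IntermediateField k (LaurentSeries k), K = towerField k 1 →
      LinearIndependent K (fun i => coeffMap (Int.castRingHom k) (B i)) := by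
    rintro K rfl
    exact hli'
  exact key _ towerField_one.symm

/-- (L) descent to the prime field: the interface consumed by [Chart]. -/
theorem exists_linearIndependent_of_inputs (N : ℕ) (ℓ : ℕ) [Fact ℓ.Prime] (hℓN : ¬ ℓ ∣ N)
    (H : TowerInputs (AlgebraicClosure (ZMod ℓ))) :
    ∃ B : Fin (dedekindPsi N) → LaurentSeries ℤ,
      (∀ i, B i ∈ Subring.closure {x | ∃ d : ℕ, d ∣ N ∧ x = expand ℤ d (jqModC ℤ)}) ∧
      LinearIndependent (IntermediateField.adjoin (ZMod ℓ) {jqModC (ZMod ℓ)})
        (fun i => coeffMap (Int.castRingHom (ZMod ℓ)) (B i)) := by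
  have hNK : (N : AlgebraicClosure (ZMod ℓ)) ≠ 0 := by
    have h1 : (N : ZMod ℓ) ≠ 0 := by
      rw [Ne, ZMod.natCast_eq_zero_iff]
      exact hℓN
    intro h
    apply h1
    apply (algebraMap (ZMod ℓ) (AlgebraicClosure (ZMod ℓ))).injective
    rw [map_natCast, h, map_zero]
  obtain ⟨B, hB, hli⟩ :=
    exists_linearIndependent_closed_of_inputs (AlgebraicClosure (ZMod ℓ)) H N hNK
  refine ⟨B, hB, ?_⟩
  have hc_inj : Function.Injective
      (coeffMap (algebraMap (ZMod ℓ) (AlgebraicClosure (ZMod ℓ)))) := by
    intro x y hxy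
    ext n
    have h2 := congrArg (fun f => f.coeff n) hxy
    simp only [coeffMap_coeff] at h2
    exact (algebraMap (ZMod ℓ) (AlgebraicClosure (ZMod ℓ))).injective h2
  have hcB : ∀ i, coeffMap (algebraMap (ZMod ℓ) (AlgebraicClosure (ZMod ℓ)))
      (coeffMap (Int.castRingHom (ZMod ℓ)) (B i)) =
      coeffMap (Int.castRingHom (AlgebraicClosure (ZMod ℓ))) (B i) := by
    intro i
    rw [coeffMap_coeffMap]
    exact coeffMap_congr (RingHom.ext_int _ _) _
  have hmem : ∀ x ∈ IntermediateField.adjoin (ZMod ℓ) {jqModC (ZMod ℓ)},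
      coeffMap (algebraMap (ZMod ℓ) (AlgebraicClosure (ZMod ℓ))) x ∈
        IntermediateField.adjoin (AlgebraicClosure (ZMod ℓ))
          {jqModC (AlgebraicClosure (ZMod ℓ))} := by
    intro x hx
    induction hx using IntermediateField.adjoin_induction with
    | mem x hx =>
      rw [Set.mem_singleton_iff] at hx
      subst hx
      rw [coeffMap_jqModC]
      exact IntermediateField.subset_adjoin _ _ (Set.mem_singleton _)
    | algebraMap a =>
      have h3 : coeffMap (algebraMap (ZMod ℓ) (AlgebraicClosure (ZMod ℓ)))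
          (algebraMap (ZMod ℓ) (LaurentSeries (ZMod ℓ)) a) =
          algebraMap (AlgebraicClosure (ZMod ℓ)) (LaurentSeries (AlgebraicClosure (ZMod ℓ)))
            (algebraMap (ZMod ℓ) (AlgebraicClosure (ZMod ℓ)) a) := by
        rw [algebraMap_laurentSeries_eq_single, algebraMap_laurentSeries_eq_single]
        exact coeffMap_single _ _ _
      rw [h3]
      exact IntermediateField.algebraMap_mem _ _
    | add x y hx hy ihx ihy =>
      rw [map_add]
      exact add_mem ihx ihy
    | inv x hx ihx =>
      rw [map_inv₀]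
      exact inv_mem ihx
    | mul x y hx hy ihx ihy =>
      rw [map_mul]
      exact mul_mem ihx ihy
  rw [Fintype.linearIndependent_iff] at hli ⊢
  intro g hg i
  have h0 : ∑ i, (⟨coeffMap (algebraMap (ZMod ℓ) (AlgebraicClosure (ZMod ℓ)))
      (g i : LaurentSeries (ZMod ℓ)), hmem _ (g i).2⟩ :
      IntermediateField.adjoin (AlgebraicClosure (ZMod ℓ))
        {jqModC (AlgebraicClosure (ZMod ℓ))}) •
      coeffMap (Int.castRingHom (AlgebraicClosure (ZMod ℓ))) (B i) = 0 := by
    have h4 := congrArg (coeffMap (algebraMap (ZMod ℓ) (AlgebraicClosure (ZMod ℓ)))) hg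
    rw [map_sum, map_zero] at h4
    rw [← h4]
    refine Finset.sum_congr rfl ?_
    intro i _
    rw [Algebra.smul_def, Algebra.smul_def, map_mul, hcB]
    rfl
  have h1 := hli _ h0 i
  have h2 : coeffMap (algebraMap (ZMod ℓ) (AlgebraicClosure (ZMod ℓ)))
      (g i : LaurentSeries (ZMod ℓ)) = 0 := congrArg Subtype.val h1
  have h3 : (g i : LaurentSeries (ZMod ℓ)) = 0 := hc_inj (by rw [h2, map_zero])
  exact Subtype.ext h3

end TowerTop

end Fermat.Agent.S28.Tower
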