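/-
S28 [Tower] (helper32): the tower line as a second, independent proof of the crux
`Reduction.HasIndepLifts N ℓ` (the first is `S28/CruxMain.lean`, helper6).
-/
import Mathlib
import Fermat.Prelude.Def_ModularCurve_IgusaScheme
import Fermat.Prelude.Def_ModularCurve_X0ModL
import Fermat.Agent.S28.Defs
import Fermat.Agent.S28.Subst
import Fermat.Agent.S28.ReductionDefs
import Fermat.Agent.S28.Tower

set_option autoImplicit false

namespace Fermat.Agent.S28.Tower

open ModularCurve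

/-- `ψ(N)` elements of `ℤ[j(q^d) : d ∣ N]` with reductions mod `ℓ` independent over `𝔽_ℓ(j̄)`,
for `ℓ ∤ N`: the tower proof. -/
theorem hasIndepLifts (N : ℕ) [NeZero N] (ℓ : ℕ) [Fact ℓ.Prime] (hℓN : ¬ ℓ ∣ N) :
    Reduction.HasIndepLifts N ℓ := by
  obtain ⟨B, hB, hli⟩ := Fermat.Agent.S28.exists_linearIndependent N ℓ hℓN
  refine ⟨B, fun i => ?_, hli⟩
  have hset : {x : LaurentSeries ℤ | ∃ d : ℕ, d ∣ N ∧ x = expand ℤ d (jqModC ℤ)} ⊆
      {x | ∃ (d : ℕ) (_ : NeZero d), d ∣ N ∧ x = qExpand ℤ d (jqModC ℤ)} := by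
    rintro x ⟨d, hd, rfl⟩
    have hd0 : d ≠ 0 := by
      rintro rfl
      exact NeZero.ne N (Nat.eq_zero_of_zero_dvd hd)
    have hdz : NeZero d := ⟨hd0⟩
    exact ⟨d, hdz, hd, by rw [expand_eq_qExpand]⟩
  exact Subring.closure_mono hset (hB i)

end Fermat.Agent.S28.Tower
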